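/-
A2 / PULL step at `Target` level (helper155).

`Target (N * a) q m → Target N q m` for a prime `a ∤ N` with `gcd(m, a + 1) = 1`:
the pullback `π^* : J₀(N) → J₀(N a)` (S37 piece [PULL], `S37.H155.pullHom`) is Galois equivariant
and injective on `m`-torsion.

Use: the semistable model at `q = 3` (resp. `q = 2`) needs `2 ∣ N` (resp. `3 ∣ N`); for the other
levels apply the wall at level `N * 2` (resp. `N * 3`) and descend by `target_three` / `target_two`.
-/
import Fermat.Agent.A2.Spec
import Fermat.Agent.S37.H155.PullAbstract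
import Fermat.Agent.Lib.FF398.Hecke
import Fermat.Agent.Lib.X0Deg.Alpha
import Fermat.Agent.S29.H571.HeckeGalois

set_option autoImplicit false
set_option linter.style.haveILetI false

noncomputable section

namespace Fermat.Agent.A2.H155

open ModularCurve AlgebraicCurve Fermat.Agent.A2 Fermat.Agent.S37.H155 Fermat.Agent.S37.H818
open Fermat.Agent.S24 Fermat.Agent.Lib.FF398 Fermat.Agent.Lib.X0Deg

/-- The pullback `π^* : J₀(N) → J₀(N a)` (same map as `S37.H155.pullHom`; restated here to keep
the import closure small). -/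
def pullHom (N a : ℕ) [NeZero N] [NeZero a] : JZero N →+ JZero (N * a) :=
  pullbackPic0Along (heckeAlphaBar Kbar N a) (heckeAlphaBarIntegral N a)
    (fundamentalIdentityAlong_alpha N a)

theorem pullHom_galois (N a : ℕ) [NeZero N] [NeZero a] (σ : Kbar ≃ₐ[ℚ] Kbar) (x : JZero N) :
    pullHom N a (σ • x) = σ • pullHom N a x := by
  rw [galois_smul_pic0_def, galois_smul_pic0_def]
  exact pullbackPic0Along_smul _ _ _ (Fermat.Agent.S29.H571.intertwines_heckeAlphaBar N a σ) x

theorem sumRamificationInertiaAlong_alpha (N a : ℕ) [NeZero N] [NeZero a] :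
    SumRamificationInertiaAlong (heckeAlphaBar Kbar N a) (heckeAlphaBarIntegral N a) := by
  letI := algebraAlong (heckeAlphaBar Kbar N a)
  haveI := isScalarTower_along (heckeAlphaBar Kbar N a)
  haveI : Module.Finite (FF N) (FF (N * a)) := finiteAlong_alpha N a
  haveI : CharZero (FF N) :=
    charZero_of_injective_algebraMap (algebraMap Kbar (FF N)).injective
  exact sumRamificationInertia (K := Kbar) (F := FF N) (F' := FF (N * a)) (deg_eq_one_FF (N * a))

theorem pullHom_inj_torsion (N a : ℕ) [NeZero N] [NeZero a] (ha : a.Prime) (haN : ¬ a ∣ N)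
    (m : ℕ) (hcop : Nat.Coprime m (a + 1)) (x : JZero N) (hm : m • x = 0)
    (hx : pullHom N a x = 0) : x = 0 := by
  refine pullbackPic0Along_eq_zero (heckeAlphaBar Kbar N a) (heckeAlphaBarIntegral N a)
    (fundamentalIdentityAlong_alpha N a) (sumRamificationInertiaAlong_alpha N a)
    (finiteAlong_alpha N a) (normFormulaAlong_alpha N a) m ?_ x hm hx
  rw [finrankAlong_heckeAlphaBar_of_not_dvd N a ha haN]
  exact hcop

/-- **PULL step for the wall A2.** -/
theorem target_of_target_mul (N a q m : ℕ) [NeZero N] [NeZero a] (ha : a.Prime)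
    (haN : ¬ a ∣ N) (hcop : Nat.Coprime m (a + 1)) (h : Target (N * a) q m) :
    Target N q m := by
  intro P hP τ hτ x hx
  have hy : m • pullHom N a x = 0 := by
    rw [← map_nsmul, hx, map_zero]
  have h1 := h P hP τ hτ (pullHom N a x) hy
  rw [← pullHom_galois, ← pullHom_galois, ← map_add, ← map_nsmul] at h1
  have hsm : ∀ y : JZero N, m • y = 0 → m • (τ • y) = 0 := by
    intro y hy0
    have e : m • (τ • y) = τ • (m • y) :=
      (map_nsmul (DistribSMul.toAddMonoidHom (JZero N) τ) m y).symm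
    rw [e, hy0]
    exact map_zero (DistribSMul.toAddMonoidHom (JZero N) τ)
  have hτx : m • (τ • x) = 0 := hsm x hx
  have hττx : m • (τ • (τ • x)) = 0 := hsm _ hτx
  have hz : m • (τ • (τ • x) + x - 2 • (τ • x)) = 0 := by
    rw [nsmul_sub, nsmul_add, hττx, hx, ← mul_nsmul', mul_comm, mul_nsmul', hτx, nsmul_zero,
      add_zero, sub_zero]
  have hpz : pullHom N a (τ • (τ • x) + x - 2 • (τ • x)) = 0 := by
    rw [map_sub, h1, sub_self]
  have := pullHom_inj_torsion N a ha haN m hcop _ hz hpz
  exact sub_eq_zero.mp this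

/-- The wall at `q = 3` for levels `N` with `2 ∤ N`, from the wall at level `N * 2`. -/
theorem target_three (N m : ℕ) [NeZero N] (hN : ¬ 2 ∣ N) (hm : ¬ 3 ∣ m)
    (h : Target (N * 2) 3 m) : Target N 3 m :=
  target_of_target_mul N 2 3 m Nat.prime_two hN
    ((Nat.Prime.coprime_iff_not_dvd Nat.prime_three).mpr hm).symm h

/-- The wall at `q = 2` for levels `N` with `3 ∤ N`, from the wall at level `N * 3`. -/
theorem target_two (N m : ℕ) [NeZero N] (hN : ¬ 3 ∣ N) (hm : ¬ 2 ∣ m)
    (h : Target (N * 3) 2 m) : Target N 2 m := by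
  refine target_of_target_mul N 3 2 m Nat.prime_three hN ?_ h
  have h2 : Nat.Coprime m 2 := ((Nat.Prime.coprime_iff_not_dvd Nat.prime_two).mpr hm).symm
  have : Nat.Coprime m (2 ^ 2) := Nat.Coprime.pow_right 2 h2
  simpa using this

/-- `q = 3`, torsion of `p`-power order, `p ≠ 3` prime. -/
theorem target_three_pow (N p n : ℕ) [NeZero N] (hN : ¬ 2 ∣ N) (hp : p.Prime) (hp3 : p ≠ 3)
    (h : Target (N * 2) 3 (p ^ n)) : Target N 3 (p ^ n) :=
  target_three N (p ^ n) hN
    (fun hd => hp3 ((Nat.prime_dvd_prime_iff_eq Nat.prime_three hp).mp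
      (Nat.prime_three.dvd_of_dvd_pow hd)).symm) h

/-- `q = 2`, torsion of `p`-power order, `p` an odd prime. -/
theorem target_two_pow (N p n : ℕ) [NeZero N] (hN : ¬ 3 ∣ N) (hp : p.Prime) (hp2 : p ≠ 2)
    (h : Target (N * 3) 2 (p ^ n)) : Target N 2 (p ^ n) :=
  target_two N (p ^ n) hN
    (fun hd => hp2 ((Nat.prime_dvd_prime_iff_eq Nat.prime_two hp).mp
      (Nat.prime_two.dvd_of_dvd_pow hd)).symm) h

end Fermat.Agent.A2.H155

end
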